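import Fermat.Prelude.Def_ModularCurve_LaurentCoeff

/-!
# Build-time shortcut for generated packs (helper891)

For `F = laurentBaseChange L F₀` (in particular `FE E N` of `A2/ModDefs`, `A2/Mod/Spec`, ...)
the instance problem `Algebra L ↥F` costs 8-16 s of search per declaration: resolution first
fails through `IntermediateField.algebra'`, `IsScalarTower.left`, `IsScalarTower.of_algHom`
(expensive unification inside `HahnSeries`) before it reaches `SubalgebraClass.toAlgebra`.
The instance below is that same term with high priority, so every later search returns at
once and the answer unfolds to the old one.  Nothing else is declared here.

Use: add `import Fermat.Agent.Pack.Fast891` as the LAST import of a generated pack.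
-/

set_option autoImplicit false

namespace Fermat.Agent.Fast891

open ModularCurve

/-- The algebra structure of `laurentBaseChange L F₀` over `L`, as found by instance resolution
(`SubalgebraClass.toAlgebra`), registered with high priority. -/
noncomputable instance (priority := high) algLaurentBaseChange (L : Type*) [Field L] [Algebra ℚ L]
    (F₀ : IntermediateField ℚ (LaurentSeries ℚ)) :
    Algebra L (laurentBaseChange L F₀) :=
  SubalgebraClass.toAlgebra (laurentBaseChange L F₀)

end Fermat.Agent.Fast891
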